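/-
S15lib / Kum / Flat / Basis  (helper2)  — Project E, block FLAT.

Abstract setting of `S19lib/F`.  **The order has an `A0`-basis which is `K`-linearly independent**:

* `smul_relation`, `exists_fixed_relation` : Galois descent of linear relations between
  equivariant functions (a `K`-relation gives a `K^G`-relation);
* `exists_unit_relation` : divide by the coefficient of largest valuation;
* `exists_basis` : a generating family of the order of minimal cardinality is `K`-linearly
  independent.
-/
import Mathlib
import Fermat.Agent.S15lib.Kum.Flat.Integral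

set_option autoImplicit false
set_option linter.unusedSectionVars false

noncomputable section

namespace Fermat.Agent.S15lib.Kum

open Fermat.Agent.S19lib.F

variable {K : Type*} [Field K] {A : ValuationSubring K}
variable {G : Type*} [Group G] [MulSemiringAction G K]
variable {X C : Type*} [MulAction G X] {g : ℕ}

/-! ### Galois descent of relations -/

/-- the conjugate of a relation between equivariant functions is a relation -/
theorem smul_relation {ι : Type*} [Fintype ι] {e : ι → X → K} (he : ∀ i, IsEquivariant G (e i))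
    {c : ι → K} (hc : ∑ i, c i • e i = 0) (σ : G) : ∑ i, (σ • c i) • e i = 0 := by
  funext x
  have h := congrFun hc (σ⁻¹ • x)
  simp only [Finset.sum_apply, Pi.smul_apply, smul_eq_mul, Pi.zero_apply] at h ⊢
  have h2 := congrArg (fun a => σ • a) h
  simp only [Finset.smul_sum, smul_mul', smul_zero] at h2
  rw [← h2]
  refine Finset.sum_congr rfl fun i _ => ?_
  rw [← he i σ (σ⁻¹ • x), smul_inv_smul]

/-- **Galois descent**: linearly dependent equivariant functions satisfy a relation with
`G`-fixed coefficients -/
theorem exists_fixed_relation : ∀ (n : ℕ) (e : Fin n → X → K), (∀ i, IsEquivariant G (e i)) →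
    ¬ LinearIndependent K e →
    ∃ c : Fin n → K, (∀ (σ : G) (i : Fin n), σ • c i = c i) ∧ (∃ i, c i ≠ 0) ∧
      ∑ i, c i • e i = 0
  | 0, e, _, h => absurd linearIndependent_empty_type h
  | n + 1, e, he, h => by
    -- a relation whose last coefficient vanishes comes from the first `n` functions
    have key : ∀ c : Fin (n + 1) → K, c (Fin.last n) = 0 → (∃ i, c i ≠ 0) →
        ∑ i, c i • e i = 0 →
        ∃ c : Fin (n + 1) → K, (∀ (σ : G) (i : Fin (n + 1)), σ • c i = c i) ∧ (∃ i, c i ≠ 0) ∧
          ∑ i, c i • e i = 0 := by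
      intro c hlast hne hc
      have hdep : ¬ LinearIndependent K (fun i : Fin n => e i.castSucc) := by
        rw [Fintype.not_linearIndependent_iff]
        refine ⟨fun i => c i.castSucc, ?_, ?_⟩
        · rw [Fin.sum_univ_castSucc, hlast, zero_smul, add_zero] at hc
          exact hc
        · obtain ⟨i, hi⟩ := hne
          rcases Fin.eq_castSucc_or_eq_last i with ⟨j, rfl⟩ | rfl
          · exact ⟨j, hi⟩
          · exact absurd hlast hi
      obtain ⟨c', hfix, ⟨i, hi⟩, hrel⟩ :=
        exists_fixed_relation n (fun i => e i.castSucc) (fun i => he _) hdep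
      refine ⟨Fin.snoc c' 0, fun σ j => ?_, ⟨i.castSucc, ?_⟩, ?_⟩
      · rcases Fin.eq_castSucc_or_eq_last j with ⟨j', rfl⟩ | rfl
        · rw [Fin.snoc_castSucc]
          exact hfix σ j'
        · rw [Fin.snoc_last, smul_zero]
      · rw [Fin.snoc_castSucc]
        exact hi
      · rw [Fin.sum_univ_castSucc, Fin.snoc_last, zero_smul, add_zero]
        simp only [Fin.snoc_castSucc]
        exact hrel
    obtain ⟨c, hc, hne⟩ := Fintype.not_linearIndependent_iff.1 h
    by_cases hlast : c (Fin.last n) = 0
    · exact key c hlast hne hc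
    · -- normalise the last coefficient to `1`
      let d : Fin (n + 1) → K := fun i => c i / c (Fin.last n)
      have hd : ∑ i, d i • e i = 0 := by
        have h1 : ∑ i, d i • e i = (c (Fin.last n))⁻¹ • ∑ i, c i • e i := by
          rw [Finset.smul_sum]
          refine Finset.sum_congr rfl fun i _ => ?_
          rw [smul_smul]
          congr 1
          show c i / c (Fin.last n) = _
          rw [div_eq_inv_mul]
        rw [h1, hc, smul_zero]
      have hdlast : d (Fin.last n) = 1 := div_self hlast
      by_cases hall : ∀ (σ : G) (i : Fin (n + 1)), σ • d i = d i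
      · exact ⟨d, hall, ⟨Fin.last n, by rw [hdlast]; exact one_ne_zero⟩, hd⟩
      · push Not at hall
        obtain ⟨σ, i, hi⟩ := hall
        refine key (fun j => σ • d j - d j) ?_ ⟨i, sub_ne_zero.2 hi⟩ ?_
        · show σ • d (Fin.last n) - d (Fin.last n) = 0
          rw [hdlast, smul_one, sub_self]
        · have h1 := smul_relation he hd σ
          have h2 : ∑ j, (σ • d j - d j) • e j = ∑ j, (σ • d j) • e j - ∑ j, d j • e j := by
            rw [← Finset.sum_sub_distrib]
            exact Finset.sum_congr rfl fun j _ => sub_smul _ _ _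
          rw [h2, h1, hd, sub_zero]

/-! ### scaling -/

/-- divide a non-zero vector by its coordinate of largest valuation -/
theorem exists_unit_relation {ι : Type*} [Fintype ι] (c : ι → K) (hc : ∃ i, c i ≠ 0) :
    ∃ i₀, c i₀ ≠ 0 ∧ ∀ i, c i / c i₀ ∈ A := by
  obtain ⟨i₁, hi₁⟩ := hc
  obtain ⟨i₀, -, hmax⟩ := Finset.exists_max_image Finset.univ (fun i => A.valuation (c i))
    ⟨i₁, Finset.mem_univ _⟩
  have h0 : c i₀ ≠ 0 := by
    intro h
    have h1 := hmax i₁ (Finset.mem_univ _)
    rw [h, map_zero] at h1
    exact hi₁ ((A.valuation.zero_iff).1 (le_antisymm h1 zero_le))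
  refine ⟨i₀, h0, fun i => ?_⟩
  rw [← A.valuation_le_one_iff, map_div₀]
  exact div_le_one_of_le₀ (hmax i (Finset.mem_univ i)) zero_le

/-! ### the basis -/

variable [Fintype X] (T : Coords A G X C g)

/-- generating families of the order -/
def IsGen (n : ℕ) (e : Fin n → X → K) : Prop :=
  (∀ i, e i ∈ T.order) ∧ ∀ φ ∈ T.order, ∃ c : Fin n → fixedRing A G, φ = ∑ i, c i • e i

theorem exists_isGen : ∃ (n : ℕ) (e : Fin n → X → K), IsGen T n e := by
  obtain ⟨n, s, hs⟩ := Submodule.fg_iff_exists_fin_generating_family.1 (order_fg T)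
  refine ⟨n, s, fun i => ?_, fun φ hφ => ?_⟩
  · have : s i ∈ Subalgebra.toSubmodule T.order := by
      rw [← hs]
      exact Submodule.subset_span ⟨i, rfl⟩
    exact this
  · have h : φ ∈ Submodule.span (fixedRing A G) (Set.range s) := by
      rw [hs]
      exact hφ
    obtain ⟨c, hc⟩ := (Submodule.mem_span_range_iff_exists_fun _).1 h
    exact ⟨c, hc.symm⟩

/-- a generating family is `K`-linearly independent or can be shortened -/
theorem IsGen.shorten {n : ℕ} {e : Fin (n + 1) → X → K} (he : IsGen T (n + 1) e)
    (hdep : ¬ LinearIndependent K e) : ∃ e' : Fin n → X → K, IsGen T n e' := by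
  obtain ⟨c, hfix, hne, hrel⟩ := exists_fixed_relation (n + 1) e (fun i => (he.1 i).1) hdep
  obtain ⟨i₀, hi₀, hA⟩ := exists_unit_relation (A := A) c hne
  -- the normalised relation, with coefficients in `A0`
  let d : Fin (n + 1) → fixedRing A G := fun i => ⟨c i / c i₀, hA i, fun σ => by
    rw [div_eq_mul_inv, smul_mul', smul_inv'', hfix, hfix]⟩
  have hd0 : (d i₀ : K) = 1 := div_self hi₀
  have hd : ∑ i, (d i : K) • e i = 0 := by
    have h1 : ∑ i, (d i : K) • e i = (c i₀)⁻¹ • ∑ i, c i • e i := by
      rw [Finset.smul_sum]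
      refine Finset.sum_congr rfl fun i _ => ?_
      rw [smul_smul]
      congr 1
      show c i / c i₀ = _
      rw [div_eq_inv_mul]
    rw [h1, hrel, smul_zero]
  -- `e i₀` is a combination of the others
  have hi₀e : e i₀ = - ∑ j : Fin n, (d (i₀.succAbove j) : K) • e (i₀.succAbove j) := by
    rw [Fin.sum_univ_succAbove _ i₀, hd0, one_smul] at hd
    exact eq_neg_of_add_eq_zero_left hd
  refine ⟨fun j => e (i₀.succAbove j), fun j => he.1 _, fun φ hφ => ?_⟩
  obtain ⟨a, ha⟩ := he.2 φ hφ
  refine ⟨fun j => a (i₀.succAbove j) - a i₀ * d (i₀.succAbove j), ?_⟩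
  rw [ha, Fin.sum_univ_succAbove _ i₀, hi₀e, smul_neg, Finset.smul_sum, ← Finset.sum_neg_distrib,
    ← Finset.sum_add_distrib]
  refine Finset.sum_congr rfl fun j _ => ?_
  rw [sub_smul, mul_smul]
  have h2 : (d (i₀.succAbove j) : K) • e (i₀.succAbove j) = d (i₀.succAbove j) • e (i₀.succAbove j) :=
    rfl
  rw [h2]
  abel

/-- **the order has an `A0`-basis which is `K`-linearly independent** -/
theorem exists_basis : ∃ (n : ℕ) (e : Fin n → X → K), (∀ i, e i ∈ T.order) ∧
    LinearIndependent K e ∧
    ∀ φ ∈ T.order, ∃ c : Fin n → fixedRing A G, φ = ∑ i, c i • e i := by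
  classical
  have hex : ∃ n : ℕ, ∃ e : Fin n → X → K, IsGen T n e := exists_isGen T
  obtain ⟨e, he⟩ := Nat.find_spec hex
  have hmin : ∀ m : ℕ, m < Nat.find hex → ¬ ∃ e : Fin m → X → K, IsGen T m e :=
    fun m hm => Nat.find_min hex hm
  generalize Nat.find hex = n at e he hmin
  refine ⟨n, e, he.1, ?_, he.2⟩
  by_contra hdep
  cases n with
  | zero => exact hdep linearIndependent_empty_type
  | succ m => exact hmin m (Nat.lt_succ_self m) (he.shorten T hdep)

end Fermat.Agent.S15lib.Kum
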