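/-
S15lib / Kum / Flat / Coord  (helper2)  — Project E, block FLAT.

Coordinates with respect to a `K`-linearly independent family `e : Fin n → X → K` of functions:

* `coeff_unique`   : `∑ aᵢ eᵢ = ∑ bᵢ eᵢ ⇒ a = b`;
* `coeff₂_unique`  : `∑ aᵢⱼ eᵢ(x) eⱼ(y) = ∑ bᵢⱼ eᵢ(x) eⱼ(y)` for all `x, y` `⇒ a = b`;
* `exists_coeff₂_of_mem_prodSpan` : an element of `H ⊗ H` (`prodSpan`) has coordinates in `A0` with
  respect to the tensor basis.
-/
import Mathlib
import Fermat.Agent.S15lib.Kum.Flat.Basis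
import Fermat.Agent.S19lib.F.Fin
import Fermat.Agent.S19lib.H.Eval

set_option autoImplicit false
set_option linter.unusedSectionVars false

noncomputable section

namespace Fermat.Agent.S15lib.Kum

open Fermat.Agent.S19lib.F

variable {K : Type*} [Field K] {A : ValuationSubring K}
variable {G : Type*} [Group G] [MulSemiringAction G K]
variable {X C : Type*} [MulAction G X] {g : ℕ}

theorem coeff_unique {n : ℕ} {e : Fin n → X → K} (he : LinearIndependent K e) {a b : Fin n → K}
    (h : ∀ x, ∑ i, a i * e i x = ∑ i, b i * e i x) : a = b := by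
  have h1 : ∑ i, (a i - b i) • e i = 0 := by
    funext x
    simp only [Finset.sum_apply, Pi.smul_apply, smul_eq_mul, Pi.zero_apply, sub_mul,
      Finset.sum_sub_distrib]
    rw [h x, sub_self]
  have h2 := Fintype.linearIndependent_iff.1 he _ h1
  funext i
  exact sub_eq_zero.1 (h2 i)

theorem coeff₂_unique {n : ℕ} {e : Fin n → X → K} (he : LinearIndependent K e)
    {a b : Fin n → Fin n → K}
    (h : ∀ x y, ∑ i, ∑ j, a i j * (e i x * e j y) = ∑ i, ∑ j, b i j * (e i x * e j y)) :
    a = b := by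
  have hli := Fermat.Agent.S19lib.H.linearIndependent_mul_prod e e he he
  have h1 : ∑ p : Fin n × Fin n, (a p.1 p.2 - b p.1 p.2) •
      (fun z : X × X => e p.1 z.1 * e p.2 z.2) = 0 := by
    funext z
    simp only [Finset.sum_apply, Pi.smul_apply, smul_eq_mul, Pi.zero_apply, sub_mul,
      Finset.sum_sub_distrib, Fintype.sum_prod_type]
    rw [h z.1 z.2, sub_self]
  have h2 := Fintype.linearIndependent_iff.1 hli _ h1
  funext i j
  exact sub_eq_zero.1 (h2 (i, j))

variable (T : Coords A G X C g)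

/-- an element of the image of `H ⊗ H` has coordinates in `A0` with respect to `eᵢ ⊗ eⱼ` -/
theorem exists_coeff₂_of_mem_prodSpan {n : ℕ} {e : Fin n → X → K}
    (hgen : ∀ φ ∈ T.order, ∃ c : Fin n → fixedRing A G, φ = ∑ i, c i • e i)
    {F : X × X → K} (hF : F ∈ T.prodSpan) :
    ∃ c : Fin n → Fin n → fixedRing A G,
      ∀ x y, F (x, y) = ∑ i, ∑ j, (c i j : K) * (e i x * e j y) := by
  obtain ⟨m, ψ, ψ', hψ, hψ', hsum⟩ := T.exists_fin_sum_of_mem_prodSpan hF
  choose a ha using fun k => hgen (ψ k) (hψ k)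
  choose a' ha' using fun k => hgen (ψ' k) (hψ' k)
  refine ⟨fun i j => ∑ k, a k i * a' k j, fun x y => ?_⟩
  rw [hsum x y]
  have h1 : ∀ k, ψ k x = ∑ i, (a k i : K) * e i x := by
    intro k
    rw [ha k, Finset.sum_apply]
    rfl
  have h2 : ∀ k, ψ' k y = ∑ j, (a' k j : K) * e j y := by
    intro k
    rw [ha' k, Finset.sum_apply]
    rfl
  have h3 : ∀ k, ψ k x * ψ' k y = ∑ i, ∑ j, ((a k i : K) * (a' k j : K)) * (e i x * e j y) := by
    intro k
    rw [h1, h2, Finset.sum_mul_sum]
    refine Finset.sum_congr rfl fun i _ => Finset.sum_congr rfl fun j _ => ?_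
    ring
  rw [Finset.sum_congr rfl fun k _ => h3 k, Finset.sum_comm]
  refine Finset.sum_congr rfl fun i _ => ?_
  rw [Finset.sum_comm]
  refine Finset.sum_congr rfl fun j _ => ?_
  push_cast
  rw [Finset.sum_mul]

end Fermat.Agent.S15lib.Kum
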