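/-
S15lib / Kum / Flat / Char  (helper2)  — Project E, block FLAT.

**Characters of a Hopf order are integral.**  Abstract setting of `S19lib/F`: `U` a finite abelian
group with an action of `G`, coordinates `T`, and the order `T.order` closed under the
comultiplication (`Δ(H) ⊆ H ⊗ H`).  Every `G`-equivariant character `χ : U → Kˣ` lies in the order.

(Cartier duality without duals: if `χ = ∑ λₖ eₖ` and `Δ eₖ = ∑ cₖⁱʲ eᵢ ⊗ eⱼ` with `cₖⁱʲ ∈ A0`, then
`λᵢ λⱼ = ∑ₖ λₖ cₖⁱʲ`; at the index of largest valuation this shows `λ ∈ A`.)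
-/
import Mathlib
import Fermat.Agent.S15lib.Kum.Flat.Coord

set_option autoImplicit false
set_option linter.unusedSectionVars false

noncomputable section

namespace Fermat.Agent.S15lib.Kum

open Fermat.Agent.S19lib.F

variable {K : Type*} [Field K] {A : ValuationSubring K}
variable {G : Type*} [Group G] [MulSemiringAction G K]

theorem valuation_eq_one_of_pow_eq_one {a : K} {n : ℕ} (hn : n ≠ 0) (h : a ^ n = 1) :
    A.valuation a = 1 := by
  have h1 := congrArg A.valuation h
  rw [map_pow, map_one] at h1
  rcases lt_trichotomy (A.valuation a) 1 with h2 | h2 | h2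
  · exact absurd h1 (ne_of_lt (pow_lt_one₀ zero_le h2 hn))
  · exact h2
  · exact absurd h1 (ne_of_gt (one_lt_pow₀ h2 hn))

section

variable {U C : Type*} [AddCommGroup U] [DistribMulAction G U] [Fintype U] {g : ℕ}

/-- a character of a finite group takes values of valuation one -/
theorem char_valuation_eq_one {χ : U → K} (hχ0 : χ 0 = 1) (hχ : ∀ u u', χ (u + u') = χ u * χ u')
    (u : U) : A.valuation (χ u) = 1 := by
  have hpow : ∀ m : ℕ, χ (m • u) = χ u ^ m := by
    intro m
    induction m with
    | zero => rw [zero_smul, pow_zero, hχ0]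
    | succ m ih => rw [succ_nsmul, hχ, ih, pow_succ]
  have h1 : χ u ^ Fintype.card U = 1 := by
    rw [← hpow, card_nsmul_eq_zero, hχ0]
  exact valuation_eq_one_of_pow_eq_one Fintype.card_ne_zero h1

/-- **equivariant characters lie in every Hopf order** -/
theorem char_mem_order (T : Coords A G U C g)
    (hΔ : ∀ φ ∈ T.order, (fun p : U × U => φ (p.1 + p.2)) ∈ T.prodSpan)
    {χ : U → K} (hχ0 : χ 0 = 1) (hχ : ∀ u u', χ (u + u') = χ u * χ u')
    (hχG : IsEquivariant G χ) : χ ∈ T.order := by
  classical
  have hχA : IsIntegralValued A χ := fun u =>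
    (A.valuation_le_one_iff _).1 (le_of_eq (char_valuation_eq_one hχ0 hχ u))
  obtain ⟨n, e, he, hli, hgen⟩ := exists_basis T
  -- the coordinates of `χ`
  obtain ⟨c0, hc0⟩ := hgen _ (T.D_smul_mem_order hχG hχA)
  let lam : Fin n → K := fun i => (c0 i : K) / T.D
  have hlam : ∀ x, χ x = ∑ i, lam i * e i x := by
    intro x
    have h1 := congrFun hc0 x
    rw [Finset.sum_apply] at h1
    have h2 : T.D * χ x = ∑ i, (c0 i : K) * e i x := h1
    have h3 : χ x = (T.D * χ x) / T.D := by
      rw [mul_div_cancel_left₀ _ T.D_ne_zero]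
    rw [h3, h2, Finset.sum_div]
    refine Finset.sum_congr rfl fun i _ => ?_
    show (c0 i : K) * e i x / T.D = (c0 i : K) / T.D * e i x
    ring
  have hlamfix : ∀ (σ : G) i, σ • lam i = lam i := by
    intro σ i
    show σ • ((c0 i : K) / T.D) = (c0 i : K) / T.D
    rw [div_eq_mul_inv, smul_mul', smul_inv'', T.smul_D, smul_coe]
  -- the structure constants of the comultiplication
  choose cc hcc using fun k => exists_coeff₂_of_mem_prodSpan T hgen (hΔ (e k) (he k))
  -- the group-like identity in coordinates
  have hid : (fun i j => lam i * lam j) = fun i j => ∑ k, lam k * (cc k i j : K) := by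
    refine coeff₂_unique hli fun x y => ?_
    have h1 : ∑ i, ∑ j, lam i * lam j * (e i x * e j y) = χ x * χ y := by
      rw [hlam x, hlam y, Finset.sum_mul_sum]
      refine Finset.sum_congr rfl fun i _ => Finset.sum_congr rfl fun j _ => ?_
      ring
    have h2 : χ (x + y) = ∑ i, ∑ j, (∑ k, lam k * (cc k i j : K)) * (e i x * e j y) := by
      rw [hlam (x + y)]
      have h3 : ∀ k, lam k * e k (x + y) =
          ∑ i, ∑ j, lam k * (cc k i j : K) * (e i x * e j y) := by
        intro k
        have := hcc k x y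
        simp only at this
        rw [this, Finset.mul_sum]
        refine Finset.sum_congr rfl fun i _ => ?_
        rw [Finset.mul_sum]
        refine Finset.sum_congr rfl fun j _ => ?_
        ring
      rw [Finset.sum_congr rfl fun k _ => h3 k, Finset.sum_comm]
      refine Finset.sum_congr rfl fun i _ => ?_
      rw [Finset.sum_comm]
      refine Finset.sum_congr rfl fun j _ => ?_
      rw [Finset.sum_mul]
    rw [h1, ← hχ, h2]
  -- a non-zero coordinate of largest valuation
  have hne : ∃ i, lam i ≠ 0 := by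
    by_contra hcon
    push Not at hcon
    have h1 := hlam 0
    rw [hχ0, Finset.sum_eq_zero fun i _ => by rw [hcon i, zero_mul]] at h1
    exact one_ne_zero h1
  obtain ⟨i₀, hi₀, hA⟩ := exists_unit_relation (A := A) lam hne
  have hi₀A : lam i₀ ∈ A := by
    have h1 : lam i₀ * lam i₀ = ∑ k, lam k * (cc k i₀ i₀ : K) := congrFun (congrFun hid i₀) i₀
    have h2 : lam i₀ = ∑ k, lam k / lam i₀ * (cc k i₀ i₀ : K) :=
      calc lam i₀ = (lam i₀ * lam i₀) / lam i₀ := by
            rw [mul_div_assoc, div_self hi₀, mul_one]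
        _ = (∑ k, lam k * (cc k i₀ i₀ : K)) / lam i₀ := by rw [h1]
        _ = ∑ k, lam k / lam i₀ * (cc k i₀ i₀ : K) := by
            rw [Finset.sum_div]
            refine Finset.sum_congr rfl fun k _ => ?_
            ring
    rw [h2]
    exact Subring.sum_mem A.toSubring fun k _ => A.mul_mem _ _ (hA k) (coe_mem_A (cc k i₀ i₀))
  have hlamA : ∀ i, lam i ∈ A := by
    intro i
    have h1 : lam i = lam i / lam i₀ * lam i₀ := by
      rw [div_mul_cancel₀ _ hi₀]
    rw [h1]
    exact A.mul_mem _ _ (hA i) hi₀A
  -- conclusion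
  have hfin : χ = ∑ i, (⟨lam i, hlamA i, fun σ => hlamfix σ i⟩ : fixedRing A G) • e i := by
    funext x
    rw [hlam x, Finset.sum_apply]
    rfl
  rw [hfin]
  exact Subalgebra.sum_mem _ fun i _ => Subalgebra.smul_mem _ (he i) _

end

end Fermat.Agent.S15lib.Kum
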