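/-
S15lib / Kum / Flat / Unit  (helper2)  — Project E, block FLAT.

The abstract form of the flat condition: `X` a finite `G`-set, `U` a finite abelian group with
`G`-action, `dif : X → X → U` an equivariant additive "difference" (`X` is a `U`-torsor),
coordinates `TX`, `TU` such that `dif` is, in the coordinates, polynomial over `A0` modulo `D²`.
For every character `χ ∈ TU.order` and every `z : X` there is a unit `β` of `A` with
`σ β = χ (dif z (σ z)) β`.
-/
import Mathlib
import Fermat.Agent.S15lib.Kum.Flat.Torsor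
import Fermat.Agent.S15lib.Kum.Flat.Char

set_option autoImplicit false
set_option linter.unusedSectionVars false

noncomputable section

namespace Fermat.Agent.S15lib.Kum

open Fermat.Agent.S19lib.F MvPolynomial

variable {K : Type*} [Field K] {A : ValuationSubring K}
variable {G : Type*} [Group G] [MulSemiringAction G K]
variable {X C : Type*} [MulAction G X] [Fintype X] {g : ℕ}
variable {U C' : Type*} [AddCommGroup U] [DistribMulAction G U] [Fintype U] {g' : ℕ}

/-- **the flat condition, abstract form** -/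
theorem exists_unit_of_char (TX : Coords A G X C g) (TU : Coords A G U C' g')
    (dif : X → X → U)
    (hdif_add : ∀ x₁ x₂ x₃, dif x₁ x₂ + dif x₂ x₃ = dif x₁ x₃)
    (hdif_smul : ∀ (σ : G) (x₁ x₂ : X), dif (σ • x₁) (σ • x₂) = σ • dif x₁ x₂)
    (γ : C → C → C') (hγ : ∀ x₁ x₂, TU.c (dif x₁ x₂) = γ (TX.c x₁) (TX.c x₂))
    (hsub : ∀ c₁ c₂ : C, ∃ Φ : Fin g' → MvPolynomial (Fin g ⊕ Fin g) (fixedRing A G),
      ∀ x₁ x₂, TX.c x₁ = c₁ → TX.c x₂ = c₂ → ∀ i,
        DvdA A (TX.D * TX.D)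
          (TU.τ (dif x₁ x₂) i - aeval (Sum.elim (TX.τ x₁) (TX.τ x₂)) (Φ i)))
    {χ : U → K} (hχmem : χ ∈ TU.order) (hχ0 : χ 0 = 1) (hχ : ∀ u u', χ (u + u') = χ u * χ u')
    (z : X) :
    ∃ β : K, A.valuation β = 1 ∧ ∀ σ : G, σ • β = χ (dif z (σ • z)) * β := by
  have hdif0 : ∀ x, dif x x = 0 := by
    intro x
    have h := hdif_add x x x
    exact add_eq_left.mp h
  let Λ : X × X → K := fun p => χ (dif p.1 p.2)
  have hΛ : Λ ∈ TX.prodSpan := by
    refine TX.mem_prodSpan_of_approx (fun σ p => ?_) fun c₁ c₂ => ?_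
    · show χ (dif (σ • p.1) (σ • p.2)) = σ • χ (dif p.1 p.2)
      rw [hdif_smul, hχmem.1]
    · obtain ⟨Φ, hΦ⟩ := hsub c₁ c₂
      obtain ⟨P, hP⟩ := hχmem.2 (γ c₁ c₂)
      refine ⟨bind₁ Φ P, fun x x' hx hx' => ?_⟩
      show DvdA A (TX.D * TX.D) (χ (dif x x') - _)
      rw [hP (dif x x') (by rw [hγ, hx, hx']), aeval_bind₁]
      refine aeval_sub_mem P (A.mul_mem _ _ TX.D_mem TX.D_mem) (TU.τ_mem (dif x x'))
        (fun i => aeval_mem (Φ i) ?_) (hΦ x x' hx hx')
      intro j
      cases j with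
      | inl i => exact TX.τ_mem x i
      | inr i => exact TX.τ_mem x' i
  have h := exists_unit_of_mem_prodSpan TX hΛ (fun x => by
      show χ (dif x x) = 1
      rw [hdif0, hχ0]) (fun x₁ x₂ x₃ => by
      show χ (dif x₁ x₂) * χ (dif x₂ x₃) = χ (dif x₁ x₃)
      rw [← hχ, hdif_add]) z
  exact h

end Fermat.Agent.S15lib.Kum
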