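/-
S15lib / Kum / Flat / Germ  (helper2)  — Project E, block FLAT.

**The flat condition (lemma (II) of KUM) on an analytic germ.**  `G : AnalyticGerm A ℓ J` with
unramified centres (`S19lib.D.geomStmt` gives one on `J = JZero N` for every `ℓ ∤ N`), `W ⊆ J` a
finite subgroup stable under the inertia group `I_A`, `φ : W → ℚ̄ˣ` an `I_A`-equivariant character,
`y : J` with `σ y - y ∈ W` for all `σ ∈ I_A`.  Then there is a unit `β` of `A` with
`σ β = φ (σ y - y) β` for all `σ ∈ I_A`  (`exists_unit_eigen`).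

Proof: `Flat/Unit.lean` (abstract) applied to the coset `X = y + W`, the group `U = W`, the
coordinates `E.cls`, `E.tau` of `S19lib/E/Fibres.lean` and the approximations modulo `d` of
`S19lib/E/Order.lean`; the character lies in the order of `W` by `Flat/Char.lean`.
-/
import Mathlib
import Fermat.Agent.S15lib.Kum.Flat.Unit
import Fermat.Agent.S19lib.E.Order
import Fermat.Agent.S19lib.F.ToIface

set_option autoImplicit false
set_option linter.unusedSectionVars false
set_option linter.style.haveILetI false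

noncomputable section

namespace Fermat.Agent.S15lib.Kum

open Fermat.Agent.S19lib Fermat.Agent.S19lib.F MvPolynomial

local notation "Qb" => AlgebraicClosure ℚ
local notation "GQ" => (AlgebraicClosure ℚ ≃ₐ[ℚ] AlgebraicClosure ℚ)

/-! ### the two names of `A^I` -/

section Retype

variable (A : ValuationSubring Qb)

/-- `A0 A → fixedRing A (IA A)` (the same subring of `ℚ̄`) -/
def toFixed : A0 A →+* fixedRing A (IA A) :=
  Subring.inclusion (le_of_eq (fixedRing_eq_A0 A).symm)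

theorem aeval_map_toFixed {ι : Type*} (P : MvPolynomial ι (A0 A)) (u : ι → Qb) :
    aeval u (MvPolynomial.map (toFixed A) P) = aeval u P := by
  rw [aeval_def, aeval_def, eval₂_map]
  rfl

end Retype

section Germ

variable {ℓ : ℕ} [Fact ℓ.Prime] {A : ValuationSubring Qb} (hA : A.LiesOverPrime ℓ)
  {J : Type} [AddCommGroup J] [DistribMulAction GQ J] (G : AnalyticGerm A ℓ J)
  (hc : HasUnramifiedCentres G)

/-! ### the subtraction, modulo `d` -/

include hA in
/-- **(INT-sub)**: modulo `d`, `tau (x' - x)` is a polynomial over `A0` in `tau x`, `tau x'` -/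
theorem sub_approx {Γ : Set J} (hΓ : Γ.Finite) {d : Qb} (hd : d ≠ 0) (c₁ c₂ : J ⧸ G.K) :
    ∃ Φ : Fin G.g → MvPolynomial (Fin G.g ⊕ Fin G.g) (A0 A),
      ∀ x ∈ Γ, ∀ x' ∈ Γ, E.cls G x = c₁ → E.cls G x' = c₂ → ∀ i, ∃ a ∈ A,
        E.tau G hc (x' - x) i -
          aeval (Sum.elim (E.tau G hc x) (E.tau G hc x')) (Φ i) = d * a := by
  have hΓ' : (Γ ∪ Neg.neg '' Γ).Finite := hΓ.union (hΓ.image _)
  obtain ⟨Φn, hΦn⟩ := E.neg_approx hA G hc hΓ hd c₁
  obtain ⟨Φa, hΦa⟩ := E.add_approx hA G hc hΓ' hd c₂ (-c₁)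
  let Ψ : Fin G.g ⊕ Fin G.g → MvPolynomial (Fin G.g ⊕ Fin G.g) (A0 A) :=
    Sum.elim (fun k => X (Sum.inr k)) (fun k => rename Sum.inl (Φn k))
  refine ⟨fun i => bind₁ Ψ (Φa i), fun x hx x' hx' h1 h2 i => ?_⟩
  have hnx : -x ∈ Γ ∪ Neg.neg '' Γ := Or.inr ⟨x, hx, rfl⟩
  have hcn : E.cls G (-x) = -c₁ := by rw [map_neg, h1]
  obtain ⟨a₁, ha₁, e₁⟩ := hΦa x' (Or.inl hx') (-x) hnx h2 hcn i
  -- the Lipschitz step
  have hb : (fun j => aeval (Sum.elim (E.tau G hc x) (E.tau G hc x')) (Ψ j)) =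
      Sum.elim (E.tau G hc x') (fun k => aeval (E.tau G hc x) (Φn k)) := by
    funext j
    cases j with
    | inl k => simp [Ψ]
    | inr k =>
      simp only [Ψ, Sum.elim_inr]
      rw [aeval_rename]
      rfl
  obtain ⟨a₂, ha₂, e₂⟩ := E.aeval_sub_aeval (Φa i)
    (a := Sum.elim (E.tau G hc x') (E.tau G hc (-x)))
    (b := Sum.elim (E.tau G hc x') (fun k => aeval (E.tau G hc x) (Φn k)))
    (fun j => by
      cases j with
      | inl k => exact E.mSet_subset (E.tau_mem G hc x' k)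
      | inr k => exact E.mSet_subset (E.tau_mem G hc (-x) k))
    (fun j => by
      cases j with
      | inl k => exact E.mSet_subset (E.tau_mem G hc x' k)
      | inr k => exact E.aeval_mem (Φn k) fun m => E.mSet_subset (E.tau_mem G hc x m))
    (d := d) (fun j => by
      cases j with
      | inl k => exact ⟨0, A.zero_mem, by simp⟩
      | inr k => exact hΦn x hx h1 k)
  refine ⟨a₁ + a₂, A.add_mem _ _ ha₁ ha₂, ?_⟩
  rw [aeval_bind₁, hb, sub_eq_add_neg x' x, mul_add, ← e₁, ← e₂]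
  ring

/-! ### inertia-stable subsets -/

/-- the action of inertia on an inertia-stable subset -/
@[reducible] def setAct (S : Set J) (hS : ∀ σ ∈ IA A, ∀ x ∈ S, σ • x ∈ S) :
    MulAction (IA A) S where
  smul σ x := ⟨(σ : GQ) • (x : J), hS σ σ.2 x x.2⟩
  one_smul x := Subtype.ext (one_smul GQ (x : J))
  mul_smul σ τ x := Subtype.ext (mul_smul (σ : GQ) (τ : GQ) (x : J))

/-- the action of inertia on an inertia-stable subgroup -/
@[reducible] def grpAct (W : AddSubgroup J) (hW : ∀ σ ∈ IA A, ∀ x ∈ W, σ • x ∈ W) :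
    DistribMulAction (IA A) W where
  smul σ x := ⟨(σ : GQ) • (x : J), hW σ σ.2 x x.2⟩
  one_smul x := Subtype.ext (one_smul GQ (x : J))
  mul_smul σ τ x := Subtype.ext (mul_smul (σ : GQ) (τ : GQ) (x : J))
  smul_zero σ := Subtype.ext (smul_zero (σ : GQ))
  smul_add σ x y := Subtype.ext (smul_add (σ : GQ) (x : J) (y : J))

/-- the coordinates `E.cls`, `E.tau` on an inertia-set mapping equivariantly and injectively
to `J` -/
def coordsVia {Y : Type*} [MulAction (IA A) Y] (ι : Y → J) (hι : Function.Injective ι)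
    (hact : ∀ (σ : IA A) (x : Y), ι (σ • x) = (σ : GQ) • ι x) :
    Coords A (IA A) Y (J ⧸ G.K) G.g where
  c := fun x => E.cls G (ι x)
  c_smul := fun σ x => by rw [hact]; exact E.cls_smul G hc σ.2 (ι x)
  τ := fun x => E.tau G hc (ι x)
  τ_smul := fun σ x i => by rw [hact]; exact congrFun (E.tau_smul G hc σ.2 (ι x)) i
  τ_mem := fun x i => E.mSet_subset (E.tau_mem G hc (ι x) i)
  τ_inj := fun x y h1 h2 => hι (E.tau_injOn G hc h1 h2)

/-! ### the flat condition -/

include hA hc in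
/-- **the flat condition on an analytic germ** -/
theorem exists_unit_eigen (W : AddSubgroup J) (hWfin : (W : Set J).Finite)
    (hWst : ∀ σ ∈ IA A, ∀ w ∈ W, σ • w ∈ W)
    (φ : J → Qb) (hφ1 : φ 0 = 1) (hφmul : ∀ w ∈ W, ∀ w' ∈ W, φ (w + w') = φ w * φ w')
    (hφeq : ∀ σ ∈ IA A, ∀ w ∈ W, φ (σ • w) = σ (φ w))
    (y : J) (hy : ∀ σ ∈ IA A, σ • y - y ∈ W) :
    ∃ β : Qb, A.valuation β = 1 ∧ ∀ σ ∈ IA A, σ β = φ (σ • y - y) * β := by
  classical
  let S : Set J := {x | x - y ∈ W}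
  have hSfin : S.Finite := by
    have h : S = (fun w => w + y) '' (W : Set J) := by
      ext x
      constructor
      · intro hx
        exact ⟨x - y, hx, sub_add_cancel x y⟩
      · rintro ⟨w, hw, rfl⟩
        show w + y - y ∈ W
        rwa [add_sub_cancel_right]
    rw [h]
    exact hWfin.image _
  have hSst : ∀ σ ∈ IA A, ∀ x ∈ S, σ • x ∈ S := by
    intro σ hσ x hx
    show σ • x - y ∈ W
    have h : σ • x - y = σ • (x - y) + (σ • y - y) := by rw [smul_sub]; abel
    rw [h]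
    exact W.add_mem (hWst σ hσ _ hx) (hy σ hσ)
  letI : Fintype S := hSfin.fintype
  letI : Fintype W := hWfin.fintype
  letI actS : MulAction (IA A) S := setAct S hSst
  letI actW : DistribMulAction (IA A) W := grpAct W hWst
  let TX : Coords A (IA A) S (J ⧸ G.K) G.g :=
    coordsVia G hc (fun x : S => (x : J)) Subtype.val_injective (fun _ _ => rfl)
  let TU : Coords A (IA A) W (J ⧸ G.K) G.g :=
    coordsVia G hc (fun x : W => (x : J)) Subtype.val_injective (fun _ _ => rfl)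
  -- the Hopf property of the order of `W`
  have hΔ : ∀ ψ ∈ TU.order, (fun p : W × W => ψ (p.1 + p.2)) ∈ TU.prodSpan := by
    intro ψ hψ
    refine TU.comul_mem_prodSpan (fun x x' => map_add (E.cls G) (x : J) (x' : J)) ?_ hψ
    intro c₁ c₂
    obtain ⟨Φ, hΦ⟩ := E.add_approx hA G hc hWfin
      (mul_ne_zero TU.D_ne_zero TU.D_ne_zero) c₁ c₂
    refine ⟨fun i => MvPolynomial.map (toFixed A) (Φ i), fun x x' hx hx' i => ?_⟩
    obtain ⟨a, ha, h⟩ := hΦ (x : J) x.2 (x' : J) x'.2 hx hx' i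
    refine ⟨a, ha, ?_⟩
    rw [aeval_map_toFixed]
    exact h
  -- the character
  let χ : W → Qb := fun u => φ (u : J)
  have hχmem : χ ∈ TU.order := by
    refine char_mem_order TU hΔ hφ1 (fun u u' => hφmul (u : J) u.2 (u' : J) u'.2) fun σ u => ?_
    exact hφeq (σ : GQ) σ.2 (u : J) u.2
  -- the difference
  let dif : S → S → W := fun x₁ x₂ => ⟨(x₂ : J) - (x₁ : J), by
    have h : (x₂ : J) - (x₁ : J) = ((x₂ : J) - y) - ((x₁ : J) - y) := by abel
    rw [h]
    exact W.sub_mem x₂.2 x₁.2⟩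
  have hz : y ∈ S := by
    show y - y ∈ W
    rw [sub_self]
    exact W.zero_mem
  obtain ⟨β, hβ, hβσ⟩ := exists_unit_of_char TX TU dif
    (fun x₁ x₂ x₃ => Subtype.ext (by
      show ((x₂ : J) - (x₁ : J)) + ((x₃ : J) - (x₂ : J)) = (x₃ : J) - (x₁ : J)
      abel))
    (fun σ x₁ x₂ => Subtype.ext (by
      show (σ : GQ) • (x₂ : J) - (σ : GQ) • (x₁ : J) = (σ : GQ) • ((x₂ : J) - (x₁ : J))
      rw [smul_sub]))
    (fun c₁ c₂ => c₂ - c₁)
    (fun x₁ x₂ => map_sub (E.cls G) (x₂ : J) (x₁ : J))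
    (fun c₁ c₂ => by
      obtain ⟨Φ, hΦ⟩ := sub_approx hA G hc hSfin (mul_ne_zero TX.D_ne_zero TX.D_ne_zero) c₁ c₂
      refine ⟨fun i => MvPolynomial.map (toFixed A) (Φ i), fun x₁ x₂ hx₁ hx₂ i => ?_⟩
      obtain ⟨a, ha, h⟩ := hΦ (x₁ : J) x₁.2 (x₂ : J) x₂.2 hx₁ hx₂ i
      refine ⟨a, ha, ?_⟩
      rw [aeval_map_toFixed]
      exact h)
    hχmem hφ1 (fun u u' => hφmul (u : J) u.2 (u' : J) u'.2) ⟨y, hz⟩
  exact ⟨β, hβ, fun σ hσ => hβσ ⟨σ, hσ⟩⟩

end Germ

end Fermat.Agent.S15lib.Kum
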