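/-
S15lib / Kum / Flat / Integral  (helper2)  — Project E, block FLAT (= lemma (II) of KUM).

Abstract setting of `S19lib/F` (block FF-F): `K` a field, `A` a valuation subring, `G` a group
acting on `K`, `A0 = fixedRing A G`, `X` a finite `G`-set with fibres and coordinates
`T : Coords A G X C g`, `T.order` the `A0`-algebra of equivariant functions which are polynomial over
`A0` in the coordinates on every fibre.

* `isIntegral_of_equivariant` : an equivariant `A`-valued function `X → K` is integral over `A0`
  (characteristic polynomial `∏ₓ (T - φ x)`);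
* `order_fg` : `T.order` is a finitely generated `A0`-module.
-/
import Mathlib
import Fermat.Agent.S19lib.F.Approx

set_option autoImplicit false
set_option linter.unusedSectionVars false

noncomputable section

namespace Fermat.Agent.S15lib.Kum

open Fermat.Agent.S19lib.F

variable {K : Type*} [Field K] {A : ValuationSubring K}
variable {G : Type*} [Group G] [MulSemiringAction G K]
variable {X C : Type*} [MulAction G X] [Fintype X] {g : ℕ}

/-- the characteristic polynomial of a function on a finite set -/
def valuePoly (φ : X → K) : Polynomial K := ∏ x : X, (Polynomial.X - Polynomial.C (φ x))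

theorem valuePoly_monic (φ : X → K) : (valuePoly φ).Monic :=
  Polynomial.monic_prod_of_monic _ _ fun x _ => Polynomial.monic_X_sub_C (φ x)

theorem valuePoly_eval (φ : X → K) (x : X) : (valuePoly φ).eval (φ x) = 0 := by
  rw [valuePoly, Polynomial.eval_prod]
  refine Finset.prod_eq_zero (Finset.mem_univ x) ?_
  simp

/-- the coefficients of the characteristic polynomial of an `A`-valued function lie in `A` -/
theorem valuePoly_coeff_mem {φ : X → K} (hφA : IsIntegralValued A φ) (n : ℕ) :
    (valuePoly φ).coeff n ∈ A := by
  have h : valuePoly φ =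
      (∏ x : X, (Polynomial.X - Polynomial.C (⟨φ x, hφA x⟩ : A))).map A.subtype := by
    rw [valuePoly, Polynomial.map_prod]
    refine Finset.prod_congr rfl fun x _ => ?_
    rw [Polynomial.map_sub, Polynomial.map_X, Polynomial.map_C]
    rfl
  rw [h, Polynomial.coeff_map]
  exact Subtype.property _

/-- the characteristic polynomial of an equivariant function is `G`-invariant -/
theorem valuePoly_map_smul {φ : X → K} (hφ : IsEquivariant G φ) (σ : G) :
    (valuePoly φ).map (MulSemiringAction.toRingHom G K σ) = valuePoly φ := by
  rw [valuePoly, Polynomial.map_prod]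
  have h1 : ∀ x : X, (Polynomial.X - Polynomial.C (φ x)).map (MulSemiringAction.toRingHom G K σ)
      = Polynomial.X - Polynomial.C (φ (σ • x)) := by
    intro x
    rw [Polynomial.map_sub, Polynomial.map_X, Polynomial.map_C, hφ σ x]
    rfl
  rw [Finset.prod_congr rfl fun x _ => h1 x]
  exact Fintype.prod_equiv (MulAction.toPerm σ) _ _ fun x => rfl

theorem valuePoly_coeff_mem_fixedRing {φ : X → K} (hφ : IsEquivariant G φ)
    (hφA : IsIntegralValued A φ) (n : ℕ) : (valuePoly φ).coeff n ∈ fixedRing A G := by
  refine ⟨valuePoly_coeff_mem hφA n, fun σ => ?_⟩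
  have h := congrArg (fun p => Polynomial.coeff p n) (valuePoly_map_smul hφ σ)
  simp only [Polynomial.coeff_map] at h
  exact h

/-- **an equivariant `A`-valued function is integral over `A0`** -/
theorem isIntegral_of_equivariant {φ : X → K} (hφ : IsEquivariant G φ)
    (hφA : IsIntegralValued A φ) : IsIntegral (fixedRing A G) φ := by
  have hc : (↑(valuePoly φ).coeffs : Set K) ⊆ fixedRing A G := by
    intro a ha
    obtain ⟨n, -, rfl⟩ := Polynomial.mem_coeffs_iff.mp (Finset.mem_coe.mp ha)
    exact valuePoly_coeff_mem_fixedRing hφ hφA n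
  refine ⟨(valuePoly φ).toSubring (fixedRing A G) hc,
    (Polynomial.monic_toSubring _ _ _).2 (valuePoly_monic φ), ?_⟩
  funext x
  have h1 := Polynomial.hom_eval₂ ((valuePoly φ).toSubring (fixedRing A G) hc)
    (algebraMap (fixedRing A G) (X → K)) (Pi.evalRingHom (fun _ : X => K) x) φ
  have h2 : (Pi.evalRingHom (fun _ : X => K) x).comp (algebraMap (fixedRing A G) (X → K))
      = (fixedRing A G).subtype := RingHom.ext fun a => rfl
  rw [h2] at h1
  show Pi.evalRingHom (fun _ : X => K) x (Polynomial.eval₂ _ φ _) = 0
  rw [h1, ← Polynomial.eval_map, Polynomial.map_toSubring]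
  exact valuePoly_eval φ x

variable (T : Coords A G X C g)

theorem isIntegral_of_mem_order {φ : X → K} (hφ : φ ∈ T.order) :
    IsIntegral (fixedRing A G) φ :=
  isIntegral_of_equivariant hφ.1 (T.isIntegralValued_of_mem hφ)

/-- the polynomial functions in the coordinates -/
theorem aeval_coordFun_apply (P : MvPolynomial (Fin g) (fixedRing A G)) (x : X) :
    (MvPolynomial.aeval T.coordFun P : X → K) x = MvPolynomial.aeval (T.τ x) P := by
  have h := MvPolynomial.aeval_unique
    ((Pi.evalAlgHom (fixedRing A G) (fun _ : X => K) x).comp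
      (MvPolynomial.aeval T.coordFun : MvPolynomial (Fin g) (fixedRing A G) →ₐ[fixedRing A G] _))
  have h2 := DFunLike.congr_fun h P
  simp only [AlgHom.comp_apply, Pi.evalAlgHom_apply] at h2
  rw [h2]
  congr 2
  funext j
  simp [Coords.coordFun]

open Classical in
/-- the finite set of algebra generators of the order: indicators of fibres and coordinates -/
def gens : Set (X → K) :=
  (Set.range fun x : X => T.ind (T.c x)) ∪ Set.range T.coordFun

theorem gens_finite : (gens T).Finite :=
  (Set.finite_range _).union (Set.finite_range _)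

theorem gens_subset : gens T ⊆ T.order := by
  rintro φ (⟨x, rfl⟩ | ⟨i, rfl⟩)
  · exact T.ind_mem _
  · exact T.coordFun_mem i

/-- the order is generated as an algebra by the indicators of the fibres and the coordinates -/
theorem order_eq_adjoin : T.order = Algebra.adjoin (fixedRing A G) (gens T) := by
  classical
  refine le_antisymm ?_ (Algebra.adjoin_le (gens_subset T))
  intro φ hφ
  choose P hP using hφ.2
  have h1 : φ = T.patch P := by
    funext x
    rw [T.patch_apply]
    exact hP (T.c x) x rfl
  rw [h1, Coords.patch]
  refine Subalgebra.sum_mem _ fun c₀ hc₀ => ?_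
  obtain ⟨x₀, -, rfl⟩ := Finset.mem_image.1 hc₀
  have h2 : T.indPoly (T.c x₀) (P (T.c x₀)) =
      T.ind (T.c x₀) * MvPolynomial.aeval T.coordFun (P (T.c x₀)) := by
    funext x
    rw [Pi.mul_apply, aeval_coordFun_apply T]
    unfold Coords.indPoly Coords.ind
    split_ifs <;> simp
  rw [h2]
  refine Subalgebra.mul_mem _ (Algebra.subset_adjoin (Or.inl ⟨x₀, rfl⟩)) ?_
  have h3 : (MvPolynomial.aeval T.coordFun (P (T.c x₀)) : X → K) ∈
      (MvPolynomial.aeval T.coordFun :
        MvPolynomial (Fin g) (fixedRing A G) →ₐ[fixedRing A G] _).range := ⟨_, rfl⟩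
  rw [← Algebra.adjoin_range_eq_range_aeval] at h3
  exact Algebra.adjoin_mono (fun φ hφ => Or.inr hφ) h3

/-- **the order is a finitely generated `A0`-module** -/
theorem order_fg : (Subalgebra.toSubmodule T.order).FG := by
  rw [order_eq_adjoin T]
  exact fg_adjoin_of_finite (gens_finite T) fun φ hφ => isIntegral_of_mem_order T (gens_subset T hφ)

end Fermat.Agent.S15lib.Kum
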