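/-
S15lib / Kum / Flat / Main  (helper2)  — Project E, block FLAT.

**The flat condition on `J₀(N)`** (lemma (II) of KUM; helper6's `hM`, helper7's `KumMStmt`):
for a prime `r ∤ N`, a place `A ∣ r`, a finite subgroup `W ⊆ J₀(N)(ℚ̄)` stable under the inertia
group `I_A`, an `I_A`-equivariant character `φ : W → ℚ̄ˣ` and `y ∈ J₀(N)(ℚ̄)` with `σ y - y ∈ W` for all
`σ ∈ I_A`, the `μ`-valued cocycle `σ ↦ φ (σ y - y)` on `I_A` is the Kummer cocycle of a UNIT of `A`.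
All `r`, `r = 2` included.  Input: `S19lib.D.geomStmt` (the analytic germ of `J₀(N)` at `A`).
-/
import Mathlib
import Fermat.Agent.S15lib.Kum.Flat.Germ
import Fermat.Agent.S19lib.D.GeomFinal

set_option autoImplicit false

noncomputable section

namespace Fermat.Agent.S15lib.Kum

open Fermat.Agent.S19lib ModularCurve

local notation "Qb" => AlgebraicClosure ℚ
local notation "GQ" => (AlgebraicClosure ℚ ≃ₐ[ℚ] AlgebraicClosure ℚ)

/-- **the flat condition on `J₀(N)`, local form** -/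
theorem exists_unit_eigen_jzero {N : ℕ} [NeZero N] {r : ℕ} [Fact r.Prime] (hrN : ¬ r ∣ N)
    (A : ValuationSubring Qb) (hA : A.LiesOverPrime r)
    (W : AddSubgroup (JZero N)) (hWfin : (W : Set (JZero N)).Finite)
    (hWst : ∀ σ ∈ A.inertiaSubgroupIn ℚ, ∀ w ∈ W, σ • w ∈ W)
    (φ : JZero N → Qb) (hφ1 : φ 0 = 1) (hφmul : ∀ w ∈ W, ∀ w' ∈ W, φ (w + w') = φ w * φ w')
    (hφeq : ∀ σ ∈ A.inertiaSubgroupIn ℚ, ∀ w ∈ W, φ (σ • w) = σ (φ w))
    (y : JZero N) (hy : ∀ σ ∈ A.inertiaSubgroupIn ℚ, σ • y - y ∈ W) :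
    ∃ β : Qb, A.valuation β = 1 ∧
      ∀ σ ∈ A.inertiaSubgroupIn ℚ, σ β = φ (σ • y - y) * β := by
  obtain ⟨G, hc⟩ := D.geomStmt N r hrN A hA
  exact exists_unit_eigen hA G hc W hWfin hWst φ hφ1 hφmul hφeq y hy

end Fermat.Agent.S15lib.Kum
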