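/-
S15lib / Kum / Flat / Torsor  (helper2)  — Project E, block FLAT.

**The unit of a torsor.**  Abstract setting of `S19lib/F`: `X` a finite `G`-set with coordinates `T`
and `Λ : X × X → K` a multiplicative kernel (`Λ(x,x) = 1`, `Λ(x₁,x₂) Λ(x₂,x₃) = Λ(x₁,x₃)`) lying in
the image of `H ⊗ H` (`H = T.order`).  Then for every `z : X` there is a unit `β` of `A` with
`σ β = Λ(z, σ z) β` for all `σ ∈ G`.

(`Λ = ∑ cᵢⱼ eᵢ ⊗ eⱼ` has rank one: `cᵢⱼ = β⁻ᵢ β⁺ⱼ`; the row and the column through the entry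
`c₀ = c_{i₀j₀}` of largest valuation, divided by `c₀`, are equivariant eigenfunctions `b, b' ∈ H`
with `Λ = c₀ · b' ⊗ b`, and `1 = Λ(z,z) = c₀ b'(z) b(z)` is a product of three elements of `A`.)
-/
import Mathlib
import Fermat.Agent.S15lib.Kum.Flat.Coord

set_option autoImplicit false
set_option linter.unusedSectionVars false

noncomputable section

namespace Fermat.Agent.S15lib.Kum

open Fermat.Agent.S19lib.F

variable {K : Type*} [Field K] {A : ValuationSubring K}
variable {G : Type*} [Group G] [MulSemiringAction G K]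
variable {X C : Type*} [MulAction G X] [Fintype X] {g : ℕ}

/-- **the unit of a torsor** -/
theorem exists_unit_of_mem_prodSpan (T : Coords A G X C g) {Λ : X × X → K}
    (hΛ : Λ ∈ T.prodSpan) (h1 : ∀ x, Λ (x, x) = 1)
    (hmul : ∀ x₁ x₂ x₃, Λ (x₁, x₂) * Λ (x₂, x₃) = Λ (x₁, x₃)) (z : X) :
    ∃ β : K, A.valuation β = 1 ∧ ∀ σ : G, σ • β = Λ (z, σ • z) * β := by
  classical
  obtain ⟨n, e, he, hli, hgen⟩ := exists_basis T
  obtain ⟨c, hc⟩ := exists_coeff₂_of_mem_prodSpan T hgen hΛ
  -- the two eigenvectors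
  let bm : Fin n → K := fun i => ∑ j, (c i j : K) * e j z
  let bp : Fin n → K := fun j => ∑ i, (c i j : K) * e i z
  have hm : ∀ x, Λ (x, z) = ∑ i, bm i * e i x := by
    intro x
    rw [hc x z]
    refine Finset.sum_congr rfl fun i _ => ?_
    show _ = (∑ j, (c i j : K) * e j z) * e i x
    rw [Finset.sum_mul]
    refine Finset.sum_congr rfl fun j _ => ?_
    ring
  have hp : ∀ y, Λ (z, y) = ∑ j, bp j * e j y := by
    intro y
    rw [hc z y, Finset.sum_comm]
    refine Finset.sum_congr rfl fun j _ => ?_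
    show _ = (∑ i, (c i j : K) * e i z) * e j y
    rw [Finset.sum_mul]
    refine Finset.sum_congr rfl fun i _ => ?_
    ring
  -- rank one
  have hrank : (fun i j => (c i j : K)) = fun i j => bm i * bp j := by
    refine coeff₂_unique hli fun x y => ?_
    rw [← hc x y, ← hmul x z y, hm x, hp y, Finset.sum_mul_sum]
    refine Finset.sum_congr rfl fun i _ => Finset.sum_congr rfl fun j _ => ?_
    ring
  have hcij : ∀ i j, (c i j : K) = bm i * bp j := fun i j => congrFun (congrFun hrank i) j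
  -- the entry of largest valuation
  have hne : ∃ p : Fin n × Fin n, (c p.1 p.2 : K) ≠ 0 := by
    by_contra hcon
    push Not at hcon
    have h2 := hc z z
    rw [h1 z, Finset.sum_eq_zero fun i _ => Finset.sum_eq_zero fun j _ => by
      rw [hcon (i, j), zero_mul]] at h2
    exact one_ne_zero h2
  obtain ⟨p₀, hp₀, hA⟩ := exists_unit_relation (A := A)
    (fun p : Fin n × Fin n => (c p.1 p.2 : K)) hne
  obtain ⟨i₀, j₀⟩ := p₀
  simp only at hp₀ hA
  set c₀ : K := (c i₀ j₀ : K) with hc₀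
  have hfix : ∀ (σ : G) i j, σ • ((c i j : K) / c₀) = (c i j : K) / c₀ := by
    intro σ i j
    rw [div_eq_mul_inv, smul_mul', smul_inv'', smul_coe, hc₀, smul_coe]
  -- the two eigenfunctions
  let r : Fin n → fixedRing A G := fun j => ⟨(c i₀ j : K) / c₀, hA (i₀, j), fun σ => hfix σ i₀ j⟩
  let r' : Fin n → fixedRing A G := fun i => ⟨(c i j₀ : K) / c₀, hA (i, j₀), fun σ => hfix σ i j₀⟩
  let b : X → K := ∑ j, r j • e j
  let b' : X → K := ∑ i, r' i • e i
  have hb : b ∈ T.order := Subalgebra.sum_mem _ fun j _ => Subalgebra.smul_mem _ (he j) _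
  have hb' : b' ∈ T.order := Subalgebra.sum_mem _ fun i _ => Subalgebra.smul_mem _ (he i) _
  have hbx : ∀ y, b y = ∑ j, (c i₀ j : K) / c₀ * e j y := by
    intro y
    show (∑ j, r j • e j) y = _
    rw [Finset.sum_apply]
    rfl
  have hb'x : ∀ x, b' x = ∑ i, (c i j₀ : K) / c₀ * e i x := by
    intro x
    show (∑ i, r' i • e i) x = _
    rw [Finset.sum_apply]
    rfl
  -- `Λ = c₀ · b' ⊗ b`
  have hkey : ∀ x y, c₀ * b' x * b y = Λ (x, y) := by
    intro x y
    rw [hc x y, hbx, hb'x, mul_assoc, Finset.sum_mul_sum, Finset.mul_sum]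
    refine Finset.sum_congr rfl fun i _ => ?_
    rw [Finset.mul_sum]
    refine Finset.sum_congr rfl fun j _ => ?_
    have h2 : (c i j₀ : K) * (c i₀ j : K) = (c i j : K) * c₀ := by
      rw [hc₀, hcij i j₀, hcij i₀ j, hcij i j, hcij i₀ j₀]
      ring
    have h3 : c₀ * ((c i j₀ : K) / c₀ * e i x * ((c i₀ j : K) / c₀ * e j y)) =
        ((c i j₀ : K) * (c i₀ j : K)) / c₀ * (e i x * e j y) := by
      field_simp
    rw [h3, h2, mul_div_assoc, div_self hp₀, mul_one]
  have hzz : c₀ * b' z * b z = 1 := by rw [hkey, h1]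
  have hbz : b z ∈ A := T.isIntegralValued_of_mem hb z
  have hb'z : b' z ∈ A := T.isIntegralValued_of_mem hb' z
  refine ⟨b z, ?_, fun σ => ?_⟩
  · have h2 : A.valuation (c₀ * b' z) * A.valuation (b z) = 1 := by
      rw [← map_mul, hzz, map_one]
    have h3 : A.valuation (c₀ * b' z) ≤ 1 :=
      (A.valuation_le_one_iff _).2 (A.mul_mem _ _ (coe_mem_A (c i₀ j₀)) hb'z)
    have h4 : A.valuation (b z) ≤ 1 := (A.valuation_le_one_iff _).2 hbz
    refine le_antisymm h4 ?_
    calc (1 : A.ValueGroup) = A.valuation (c₀ * b' z) * A.valuation (b z) := h2.symm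
      _ ≤ 1 * A.valuation (b z) := mul_le_mul_left h3 _
      _ = A.valuation (b z) := one_mul _
  · rw [← hb.1 σ z]
    calc b (σ • z) = (c₀ * b' z * b z) * b (σ • z) := by rw [hzz, one_mul]
      _ = (c₀ * b' z * b (σ • z)) * b z := by ring
      _ = Λ (z, σ • z) * b z := by rw [hkey]

end Fermat.Agent.S15lib.Kum
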